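import Fermat.Agent.S24.Ord
import Fermat.Agent.Gateway.Root.Main
import Fermat.Agent.Gateway.Hecke.Coh

/-!
# P-GATEWAY WP-HK3, analytic core (helper20)

For `h : MerFun` we form the *Hecke product* `heckeProd l h = ∏_x h ∘ heckeRep l x`
(`x ∈ ℙ¹(𝔽_l)`; `h ∘ g = g⁻¹ • h` for the S24 action `(g • h) z = h (g⁻¹ z)`).
If `h` transforms under `Γ₀(N)` by a character `χ`, in the sense
`γ⁻¹ • h = cst (χ γ) * h` (i.e. `h (γ z) = χ γ * h z`), then `heckeProd l h` transforms by the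
character `γ ↦ ∏_x χ (coc x γ)`, the multiplicative twin of `heckeHom`.
-/

set_option autoImplicit false

open UpperHalfPlane CongruenceSubgroup Matrix.SpecialLinearGroup
open scoped MatrixGroups
open P2MW.S_ModularForm_heckeT_slash_eq_self_of_mem_Gamma0.ModularForm.HeckeSlashInvariance

namespace Fermat.Agent.Gateway.ThetaHecke

open Fermat.Agent.S24 Fermat.Agent.S24.MerFun Fermat.Agent.Gateway.Root
open Fermat.Agent.Gateway.HeckeCoh

/-! ### The two actions on `MerFun` -/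

/-- The `SL(2,ℤ)`-action on `MerFun` is the restriction of the `GL(2,ℝ)⁺`-action. -/
theorem sl_smul_eq (γ : SL(2, ℤ)) (h : MerFun) : γ • h = HolFun.slToGLPos γ • h := by
  obtain ⟨a, b, hb, rfl⟩ := OrdFn.exists_div (R := HolFun) MerFun h
  rw [div_eq_mul_inv, smul_mul', smul_mul', smul_inv'', smul_inv'', MerFun.sl_smul_algebraMap,
    MerFun.sl_smul_algebraMap, MerFun.smul_algebraMap, MerFun.smul_algebraMap,
    HolFun.sl_smul_def, HolFun.sl_smul_def]

theorem coe_slToGLPos (γ : SL(2, ℤ)) :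
    ((HolFun.slToGLPos γ : GL(2, ℝ)⁺) : GL (Fin 2) ℝ) = mapGL ℝ γ := rfl

/-! ### The Hecke representatives in `GL(2,ℝ)⁺` -/

theorem det_heckeRep_pos (l : ℕ) (x : OnePoint (ZMod l)) :
    0 < ((heckeRep l x).det : ℝ) := by
  induction x using OnePoint.rec with
  | infty => rw [heckeRep_infty]; exact ModularForm.det_heckeDiagMatrix_pos l
  | coe j => rw [heckeRep_coe]; exact ModularForm.det_heckeMatrix_pos l j.val

/-- `heckeRep l x` as an element of `GL(2,ℝ)⁺`. -/
noncomputable def heckeRepPos (l : ℕ) (x : OnePoint (ZMod l)) : GL(2, ℝ)⁺ :=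
  ⟨heckeRep l x, det_heckeRep_pos l x⟩

@[simp] theorem coe_heckeRepPos (l : ℕ) (x : OnePoint (ZMod l)) :
    ((heckeRepPos l x : GL(2, ℝ)⁺) : GL (Fin 2) ℝ) = heckeRep l x := rfl

variable (N l : ℕ) [NeZero N] [Fact l.Prime] (hlN : ¬ l ∣ N)

/-- The cocycle relation in `GL(2,ℝ)⁺`. -/
theorem heckeRepPos_mul (x : OnePoint (ZMod l)) (γ : Gamma0 N) :
    heckeRepPos l x * HolFun.slToGLPos (γ : SL(2, ℤ)) =
      HolFun.slToGLPos (coc N l hlN x γ : SL(2, ℤ)) *
        heckeRepPos l (redMatrix l (γ : SL(2, ℤ)) • x) := by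
  apply Subtype.ext
  exact coc_spec N l hlN x γ

/-! ### The Hecke product -/

/-- `heckeProd l h = ∏_x h ∘ heckeRep l x`. -/
noncomputable def heckeProd (h : MerFun) : MerFun :=
  ∏ x : OnePoint (ZMod l), (heckeRepPos l x)⁻¹ • h

theorem heckeProd_def (h : MerFun) :
    heckeProd l h = ∏ x : OnePoint (ZMod l), (heckeRepPos l x)⁻¹ • h := rfl

theorem heckeProd_one : heckeProd l 1 = 1 := by
  simp [heckeProd]

theorem heckeProd_mul (h₁ h₂ : MerFun) :
    heckeProd l (h₁ * h₂) = heckeProd l h₁ * heckeProd l h₂ := by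
  simp only [heckeProd, smul_mul', Finset.prod_mul_distrib]

theorem heckeProd_pow (h : MerFun) (n : ℕ) : heckeProd l (h ^ n) = heckeProd l h ^ n := by
  simp only [heckeProd, smul_pow', Finset.prod_pow]

theorem heckeProd_inv (h : MerFun) : heckeProd l h⁻¹ = (heckeProd l h)⁻¹ := by
  simp only [heckeProd, smul_inv'', Finset.prod_inv_distrib]

theorem heckeProd_cst (c : ℂ) :
    heckeProd l (cst c) = cst (c ^ (l + 1)) := by
  simp only [heckeProd, gl_smul_cst, Finset.prod_const, Finset.card_univ, cst_pow]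
  congr 1
  have : NeZero l := ⟨(Fact.out : l.Prime).ne_zero⟩
  rw [show Fintype.card (OnePoint (ZMod l)) = Fintype.card (Option (ZMod l)) from rfl,
    Fintype.card_option, ZMod.card]

theorem heckeProd_ne_zero {h : MerFun} (hh : h ≠ 0) : heckeProd l h ≠ 0 := by
  rw [heckeProd, Finset.prod_ne_zero_iff]
  intro x _
  exact (smul_ne_zero_iff_ne _).mpr hh

/-- **HK3 core.**  If `h (γ z) = χ γ * h z` for all `γ ∈ Γ₀(N)`, then
`(heckeProd l h) (γ z) = (∏_x χ (coc x γ)) * (heckeProd l h) z`. -/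
theorem inv_smul_heckeProd {h : MerFun} {χ : Gamma0 N → ℂ}
    (hχ : ∀ γ : Gamma0 N, (γ : SL(2, ℤ))⁻¹ • h = cst (χ γ) * h) (γ : Gamma0 N) :
    (γ : SL(2, ℤ))⁻¹ • heckeProd l h =
      cst (∏ x : OnePoint (ZMod l), χ (coc N l hlN x γ)) * heckeProd l h := by
  have key : ∀ x : OnePoint (ZMod l),
      (γ : SL(2, ℤ))⁻¹ • ((heckeRepPos l x)⁻¹ • h) =
        cst (χ (coc N l hlN x γ)) *
          ((heckeRepPos l (redMatrix l (γ : SL(2, ℤ)) • x))⁻¹ • h) := by
    intro x
    rw [sl_smul_eq, map_inv, ← mul_smul, ← mul_inv_rev, heckeRepPos_mul N l hlN x γ,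
      mul_inv_rev, mul_smul, ← map_inv, ← sl_smul_eq, hχ, smul_mul', gl_smul_cst]
  rw [heckeProd, Finset.smul_prod']
  simp only [key]
  rw [Finset.prod_mul_distrib]
  have hc : (∏ x : OnePoint (ZMod l), cst (χ (coc N l hlN x γ))) =
      cst (∏ x : OnePoint (ZMod l), χ (coc N l hlN x γ)) := (map_prod cstHom _ _).symm
  rw [hc]
  congr 1
  exact Equiv.prod_comp (MulAction.toPerm (redMatrix l (γ : SL(2, ℤ))))
    (fun x => (heckeRepPos l x)⁻¹ • h)

end Fermat.Agent.Gateway.ThetaHecke
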