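import Mathlib
import Fermat.Agent.Gateway.A2.Defs

/-!
helper6 (P-GATEWAY A1).  Geometry of the elements `γ` of `SL(2, ℤ)` with `trace ^ 2 ≤ 4`:
an element with `trace ^ 2 < 4` has a fixed point in the upper half plane, and an element with
`trace ^ 2 = 4` is, up to sign, conjugate to a power of `T`.
-/

set_option autoImplicit false

open Complex UpperHalfPlane
open scoped MatrixGroups

namespace Fermat.Agent.Gateway.Theta

open Fermat.Agent.Gateway.A2 Matrix

theorem coe_sl_smul' (g : SL(2, ℤ)) (z : ℍ) :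
    ((g • z : ℍ) : ℂ) =
      ((g 0 0 : ℂ) * z + (g 0 1 : ℂ)) / ((g 1 0 : ℂ) * z + (g 1 1 : ℂ)) := by
  have := UpperHalfPlane.coe_specialLinearGroup_apply g z
  simpa using this

theorem sl_denom_ne_zero' (g : SL(2, ℤ)) (z : ℍ) :
    (g 1 0 : ℂ) * z + (g 1 1 : ℂ) ≠ 0 := by
  have := UpperHalfPlane.denom_ne_zero (g : GL (Fin 2) ℝ) z
  simpa [UpperHalfPlane.denom] using this

/-- An element of `SL(2, ℤ)` with `|trace| < 2` has a fixed point in the upper half plane. -/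
theorem exists_fixed_of_trace_sq_lt (γ : SL(2, ℤ))
    (h : ((γ : Matrix (Fin 2) (Fin 2) ℤ).trace) ^ 2 < 4) : ∃ τ : ℍ, γ • τ = τ := by
  have hdet : γ 0 0 * γ 1 1 - γ 0 1 * γ 1 0 = 1 := by
    have := γ.det_coe
    rwa [Matrix.det_fin_two] at this
  rw [Matrix.trace_fin_two] at h
  set a := γ 0 0 with ha
  set b := γ 0 1 with hb
  set c := γ 1 0 with hc
  set d := γ 1 1 with hd
  have hc0 : c ≠ 0 := by
    intro h0
    rw [h0, mul_zero, sub_zero] at hdet
    have h1 : a = 1 ∧ d = 1 ∨ a = -1 ∧ d = -1 := Int.mul_eq_one_iff_eq_one_or_neg_one.1 hdet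
    rcases h1 with ⟨h1, h2⟩ | ⟨h1, h2⟩ <;> rw [h1, h2] at h <;> norm_num at h
  have hcR : (c : ℝ) ≠ 0 := by exact_mod_cast hc0
  have hpos : (0 : ℝ) < 4 - ((a : ℝ) + d) ^ 2 := by
    have : ((a + d) ^ 2 : ℤ) < 4 := h
    have h' : (((a + d) ^ 2 : ℤ) : ℝ) < 4 := by exact_mod_cast this
    push_cast at h'
    linarith
  set x : ℝ := ((a : ℝ) - d) / (2 * c) with hx
  set y : ℝ := Real.sqrt (4 - ((a : ℝ) + d) ^ 2) / (2 * |(c : ℝ)|) with hy
  have hypos : 0 < y := by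
    have : 0 < |(c : ℝ)| := abs_pos.2 hcR
    positivity
  have h1 : 2 * (c : ℝ) * x = a - d := by
    rw [hx]; field_simp
  have h2 : 4 * (c : ℝ) ^ 2 * y ^ 2 = 4 - ((a : ℝ) + d) ^ 2 := by
    rw [hy, div_pow, Real.sq_sqrt hpos.le, mul_pow, sq_abs]
    field_simp
    ring
  have hdetR : (a : ℝ) * d - b * c = 1 := by exact_mod_cast hdet
  have him : 0 < ((x : ℂ) + y * Complex.I).im := by simpa using hypos
  refine ⟨⟨(x : ℂ) + y * Complex.I, him⟩, ?_⟩
  rw [UpperHalfPlane.ext_iff, coe_sl_smul']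
  have hden := sl_denom_ne_zero' γ ⟨(x : ℂ) + y * Complex.I, him⟩
  rw [div_eq_iff hden]
  simp only [← ha, ← hb, ← hc, ← hd]
  have hcC : (c : ℂ) ≠ 0 := by exact_mod_cast hc0
  have h1C : 2 * (c : ℂ) * x = a - d := by exact_mod_cast h1
  have h2C : 4 * (c : ℂ) ^ 2 * (y : ℂ) ^ 2 = 4 - ((a : ℂ) + d) ^ 2 := by exact_mod_cast h2
  have hdetC : (a : ℂ) * d - b * c = 1 := by exact_mod_cast hdetR
  have h4c : (4 * (c : ℂ)) ≠ 0 := mul_ne_zero (by norm_num) hcC
  apply mul_left_cancel₀ h4c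
  linear_combination (-(2 * (c : ℂ) * x + 2 * (2 * (c : ℂ) * y * Complex.I) + ((d : ℂ) - a))) * h1C
     - (4 * (c : ℂ) ^ 2 * (y : ℂ) ^ 2) * Complex.I_sq + h2C - 4 * hdetC

/-- An element of `SL(2, ℤ)` whose bottom row is `(0, 1)` is a power of `T`. -/
theorem eq_T_zpow_of_bottom (X : SL(2, ℤ)) (h10 : X 1 0 = 0) (h11 : X 1 1 = 1) :
    X = ModularGroup.T ^ (X 0 1) := by
  have hdet : X 0 0 * X 1 1 - X 0 1 * X 1 0 = 1 := by
    have := X.det_coe
    rwa [Matrix.det_fin_two] at this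
  rw [h10, h11, mul_one, mul_zero, sub_zero] at hdet
  ext i j
  rw [ModularGroup.coe_T_zpow]
  fin_cases i <;> fin_cases j <;> simp [hdet, h10, h11]

/-- A left eigenvector with coprime entries for a matrix of trace `2` in `SL(2, ℤ)`. -/
theorem exists_coprime_left_fixed (γ : SL(2, ℤ))
    (h : ((γ : Matrix (Fin 2) (Fin 2) ℤ).trace) = 2) :
    ∃ u v : ℤ, IsCoprime u v ∧ u * γ 0 0 + v * γ 1 0 = u ∧ u * γ 0 1 + v * γ 1 1 = v := by
  have hdet : γ 0 0 * γ 1 1 - γ 0 1 * γ 1 0 = 1 := by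
    have := γ.det_coe
    rwa [Matrix.det_fin_two] at this
  rw [Matrix.trace_fin_two] at h
  set a := γ 0 0 with ha
  set b := γ 0 1 with hb
  set c := γ 1 0 with hc
  set d := γ 1 1 with hd
  have hd' : d = 2 - a := by linarith
  by_cases hc0 : c = 0
  · refine ⟨0, 1, isCoprime_zero_left.2 isUnit_one, by simp [hc0], ?_⟩
    rw [hc0, mul_zero, sub_zero, hd'] at hdet
    have : (a - 1) ^ 2 = 0 := by linear_combination -hdet
    have ha1 : a = 1 := by
      have := pow_eq_zero_iff (two_ne_zero) |>.1 this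
      linarith
    rw [hd', ha1]; norm_num
  · have hpos : 0 < Int.gcd (a - 1) c := Int.gcd_pos_of_ne_zero_right _ hc0
    obtain ⟨m', c', hcop, hm, hcc⟩ := Int.exists_gcd_one hpos
    set e : ℤ := ((Int.gcd (a - 1) c : ℕ) : ℤ) with he
    have he0 : e ≠ 0 := by
      rw [he]; exact_mod_cast hpos.ne'
    refine ⟨c', -m', ?_, ?_, ?_⟩
    · rw [IsCoprime.neg_right_iff]
      exact (Int.isCoprime_iff_gcd_eq_one.2 hcop).symm
    · have ha' : a = m' * e + 1 := by linarith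
      rw [ha', hcc]; ring
    · have ha' : a = m' * e + 1 := by linarith
      have key : e * (c' * b + m' * (m' * e)) = 0 := by
        have hdet' := hdet
        rw [hd', ha'] at hdet'
        rw [hcc] at hdet'
        linear_combination -hdet'
      have key' := (mul_eq_zero.1 key).resolve_left he0
      rw [hd', ha']
      linear_combination key'

/-- An element of trace `2` of `SL(2, ℤ)` is conjugate to a power of `T`. -/
theorem exists_conj_T_zpow_of_trace_eq_two (γ : SL(2, ℤ))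
    (h : ((γ : Matrix (Fin 2) (Fin 2) ℤ).trace) = 2) :
    ∃ (g : SL(2, ℤ)) (k : ℤ), γ = g⁻¹ * ModularGroup.T ^ k * g := by
  obtain ⟨u, v, hcop, h1, h2⟩ := exists_coprime_left_fixed γ h
  obtain ⟨g, -, hg⟩ := ModularGroup.bottom_row_surj (R := ℤ) (show ![u, v] ∈ {cd : Fin 2 → ℤ | IsCoprime (cd 0) (cd 1)} from hcop)
  have hg0 : g 1 0 = u := by
    have := congrFun hg 0
    simpa using this
  have hg1 : g 1 1 = v := by
    have := congrFun hg 1
    simpa using this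
  set X : SL(2, ℤ) := g * γ * g⁻¹ with hX
  have hrow : (X : Matrix (Fin 2) (Fin 2) ℤ) 1 = ![0, 1] := by
    have e1 : (X : Matrix (Fin 2) (Fin 2) ℤ) = (g : Matrix (Fin 2) (Fin 2) ℤ) * γ * (g⁻¹ : SL(2, ℤ)) := by
      rw [hX]; simp
    have e2 : ((g : Matrix (Fin 2) (Fin 2) ℤ) * γ) 1 = (g : Matrix (Fin 2) (Fin 2) ℤ) 1 := by
      ext j
      fin_cases j
      · simp [Matrix.mul_apply, Fin.sum_univ_two, hg0, hg1, h1]
      · simp [Matrix.mul_apply, Fin.sum_univ_two, hg0, hg1, h2]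
    have e3 : (g : Matrix (Fin 2) (Fin 2) ℤ) * (g⁻¹ : SL(2, ℤ)) = 1 := by
      rw [← Matrix.SpecialLinearGroup.coe_mul, mul_inv_cancel, Matrix.SpecialLinearGroup.coe_one]
    rw [e1, Matrix.mul_apply_eq_vecMul, e2, ← Matrix.mul_apply_eq_vecMul, e3]
    ext j
    fin_cases j
    · simp
    · show (1 : Matrix (Fin 2) (Fin 2) ℤ) 1 1 = 1
      simp
  have h10 : X 1 0 = 0 := by
    have := congrFun hrow 0
    simpa using this
  have h11 : X 1 1 = 1 := by
    have := congrFun hrow 1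
    simpa using this
  refine ⟨g, X 0 1, ?_⟩
  rw [← eq_T_zpow_of_bottom X h10 h11, hX]
  group

/-- An element `γ` of `SL(2, ℤ)` with `trace ^ 2 = 4` is, up to sign, conjugate to a power of
`T`. -/
theorem exists_conj_T_zpow (γ : SL(2, ℤ))
    (h : ((γ : Matrix (Fin 2) (Fin 2) ℤ).trace) ^ 2 = 4) :
    ∃ (g : SL(2, ℤ)) (k : ℤ), γ = g⁻¹ * ModularGroup.T ^ k * g ∨
      γ = -(g⁻¹ * ModularGroup.T ^ k * g) := by
  have h2 : (γ : Matrix (Fin 2) (Fin 2) ℤ).trace = 2 ∨ (γ : Matrix (Fin 2) (Fin 2) ℤ).trace = -2 := by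
    have : ((γ : Matrix (Fin 2) (Fin 2) ℤ).trace - 2) * ((γ : Matrix (Fin 2) (Fin 2) ℤ).trace + 2) = 0 := by
      linear_combination h
    rcases mul_eq_zero.1 this with h | h
    · left; linarith
    · right; linarith
  rcases h2 with h2 | h2
  · obtain ⟨g, k, hk⟩ := exists_conj_T_zpow_of_trace_eq_two γ h2
    exact ⟨g, k, Or.inl hk⟩
  · have h3 : ((-γ : SL(2, ℤ)) : Matrix (Fin 2) (Fin 2) ℤ).trace = 2 := by
      rw [Matrix.SpecialLinearGroup.coe_neg, Matrix.trace_neg, h2]; norm_num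
    obtain ⟨g, k, hk⟩ := exists_conj_T_zpow_of_trace_eq_two (-γ) h3
    refine ⟨g, k, Or.inr ?_⟩
    rw [← hk, neg_neg]

end Fermat.Agent.Gateway.Theta
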