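import Fermat.Agent.Gateway.Root.Cusp
import Fermat.Agent.Gateway.Root.Fixed
import Fermat.Agent.Gateway.A2.CountPE
import Fermat.Agent.Gateway.Theta.PE
import Fermat.Prelude.Def_AlgebraicCurve_DivisorClassGroup

/-!
helper6 (P-GATEWAY A1).  The character of `Γ₀(N)` attached to an `m`-th root `h` (in `MerFun`) of
the image of a function `f` of the function field `F` of `X₀(N)` over `ℂ` whose divisor is
divisible by `m`.  The dictionary between places of `F` and points / cusps is an input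
(`DictInput`).  Convention: `h (γ z) = χ(γ) h (z)`, i.e. `γ⁻¹ • h = cst (χ γ) * h`.
-/

set_option autoImplicit false

open Complex UpperHalfPlane
open scoped MatrixGroups

namespace Fermat.Agent.Gateway.Theta

open Fermat.Agent.S24 MerFun CuspOrd Fermat.Agent.Gateway.Root AlgebraicCurve CongruenceSubgroup
open Fermat.Agent.Gateway.A2 Fermat.Agent.Gateway.A2.Count

/-- The input from the dictionary between places of the function field `F` of `X₀(N)` over `ℂ`
and points of the upper half plane and cusps. -/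
structure DictInput (N : ℕ) (F : Type*) [Field F] [Algebra ℂ F] where
  emb : F →+* MerFun
  emb_const : ∀ c : ℂ, emb (algebraMap ℂ F c) = cst c
  emb_fixed : ∀ γ ∈ Gamma0 N, ∀ f : F, γ • emb f = emb f
  isCuspMer : ∀ (f : F) (g : SL(2, ℤ)), IsCuspMer N (g • emb f)
  point : ∀ z : ℍ, ∃ (v : Place ℂ F) (c : ℕ), 0 < c ∧
    ∀ f : F, f ≠ 0 → (c : ℤ) * v.ord f = ordMer z (emb f)
  cusp : ∀ g : SL(2, ℤ), ∃ (v : Place ℂ F) (c : ℕ), 0 < c ∧
    ∀ f : F, f ≠ 0 → (c : ℤ) * v.ord f = ordInfMer N (g • emb f)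
  range : ∀ h : MerFun, (∀ γ ∈ Gamma0 N, γ • h = h) → (∀ g : SL(2, ℤ), IsCuspMer N (g • h)) →
    h ∈ emb.range
  const_of_ord : ∀ f : F, f ≠ 0 → (∀ v : Place ℂ F, v.ord f = 0) → ∃ c : ℂ, f = algebraMap ℂ F c

variable {N : ℕ} {F : Type*} [Field F] [Algebra ℂ F] (I : DictInput N F)

namespace DictInput

theorem emb_injective : Function.Injective I.emb := I.emb.injective

theorem emb_ne_zero {f : F} (hf : f ≠ 0) : I.emb f ≠ 0 := by
  intro h
  exact hf (I.emb_injective (by rw [h, map_zero]))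

end DictInput

theorem exists_ord_eq_one (v : Place ℂ F) : ∃ t : F, t ≠ 0 ∧ v.ord t = 1 := by
  obtain ⟨π, hπ⟩ := IsDiscreteValuationRing.exists_irreducible v.toValuationSubring
  refine ⟨π, ?_, v.ord_coe_irreducible hπ⟩
  intro h0
  have := v.ord_coe_irreducible hπ
  rw [h0, Place.ord_zero] at this
  exact zero_ne_one this

/-- A root datum: `h ^ m = emb f` where `div f = m D`. -/
structure IsRoot (m : ℕ) (D : Place ℂ F → ℤ) (f : F) (h : MerFun) : Prop where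
  ne_zero : f ≠ 0
  div_eq : ∀ v : Place ℂ F, (m : ℤ) * D v = v.ord f
  pow_eq : h ^ m = I.emb f

theorem qParam_nat_mul_pow (m N : ℕ) (hm : 0 < m) (z : ℂ) :
    Function.Periodic.qParam ((m * N : ℕ) : ℝ) z ^ m = Function.Periodic.qParam (N : ℝ) z := by
  rw [Function.Periodic.qParam, Function.Periodic.qParam, ← Complex.exp_nat_mul]
  congr 1
  have hm' : (m : ℂ) ≠ 0 := Nat.cast_ne_zero.2 hm.ne'
  rcases Nat.eq_zero_or_pos N with rfl | hN
  · simp
  have hN' : (N : ℂ) ≠ 0 := Nat.cast_ne_zero.2 hN.ne'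
  push_cast
  field_simp

theorem neg_one_mem_Gamma0 (N : ℕ) : (-1 : SL(2, ℤ)) ∈ Gamma0 N := by
  rw [Gamma0_mem]
  simp

theorem trace_inv (γ : SL(2, ℤ)) :
    ((γ⁻¹ : SL(2, ℤ)) : Matrix (Fin 2) (Fin 2) ℤ).trace =
      (γ : Matrix (Fin 2) (Fin 2) ℤ).trace := by
  rw [Matrix.SpecialLinearGroup.coe_inv, Matrix.adjugate_fin_two, Matrix.trace_fin_two,
    Matrix.trace_fin_two]
  simp [add_comm]

theorem isPE_inv {γ : SL(2, ℤ)} (h : IsPE γ) : IsPE γ⁻¹ := by
  unfold IsPE at h ⊢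
  rwa [trace_inv]

namespace IsRoot

variable {I} {m : ℕ} {D : Place ℂ F → ℤ} {f : F} {h : MerFun}

theorem root_ne_zero (H : IsRoot I m D f h) (hm : 0 < m) : h ≠ 0 := by
  intro h0
  have := H.pow_eq
  rw [h0, zero_pow hm.ne'] at this
  exact I.emb_ne_zero H.ne_zero this.symm

/-- The order of the root at a point of the upper half plane. -/
theorem exists_ordMer_eq (H : IsRoot I m D f h) (hm : 0 < m) (z : ℍ) :
    ∃ (v : Place ℂ F) (c : ℕ), 0 < c ∧
      (∀ f : F, f ≠ 0 → (c : ℤ) * v.ord f = ordMer z (I.emb f)) ∧ ordMer z h = c * D v := by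
  obtain ⟨v, c, hc, hv⟩ := I.point z
  refine ⟨v, c, hc, hv, ?_⟩
  have h1 : (m : ℤ) * ordMer z h = (m : ℤ) * (c * D v) := by
    rw [← ordMer_pow, H.pow_eq, ← hv f H.ne_zero, ← H.div_eq v]
    ring
  exact mul_left_cancel₀ (Int.natCast_ne_zero.2 hm.ne') h1

/-- An element of `Γ₀(N)` with a fixed point in the upper half plane acts trivially on a root. -/
theorem eigenvalue_eq_one_of_fixed (H : IsRoot I m D f h) (hm : 0 < m) {γ : SL(2, ℤ)}
    (hγ : γ ∈ Gamma0 N) {τ : ℍ} (hfix : γ • τ = τ) {ζ : ℂ} (hζ : γ • h = cst ζ * h) : ζ = 1 := by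
  obtain ⟨v, c, hc, hv, hord⟩ := H.exists_ordMer_eq hm τ
  obtain ⟨t, ht0, ht⟩ := exists_ord_eq_one v
  have h1 : ordMer τ (I.emb t) = c := by
    rw [← hv t ht0, ht, mul_one]
  have h2 : (denom γ τ ^ 2) ^ (c : ℤ) = 1 := by
    rw [← h1]
    exact denom_sq_zpow_ordMer_eq (I.emb t) (I.emb_ne_zero ht0) γ τ hfix 1
      (by rw [cst_one, one_mul, I.emb_fixed γ hγ])
  rw [← denom_sq_zpow_ordMer_eq h (H.root_ne_zero hm) γ τ hfix ζ hζ, hord, zpow_mul, h2, one_zpow]

/-- The order of a translate of the root at the cusp `∞`. -/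
theorem exists_ordInfMer_eq (H : IsRoot I m D f h) (hm : 0 < m) (hN : 0 < N) (g : SL(2, ℤ)) :
    ∃ (v : Place ℂ F) (c : ℕ), 0 < c ∧
      (∀ f : F, f ≠ 0 → (c : ℤ) * v.ord f = ordInfMer N (g • I.emb f)) ∧
      IsCuspMer (m * N) (g • h) ∧ ordInfMer (m * N) (g • h) = c * (m * D v) := by
  obtain ⟨v, c, hc, hv⟩ := I.cusp g
  have hpow : (g • h) ^ m = g • I.emb f := by rw [← smul_pow', H.pow_eq]
  have hF : IsCuspMer N ((g • h) ^ m) := by rw [hpow]; exact I.isCuspMer f g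
  refine ⟨v, c, hc, hv, isCuspMer_of_pow hm hF, ?_⟩
  rw [ordInfMer_of_pow hN hm hF, hpow, ← hv f H.ne_zero, ← H.div_eq v]

/-- A parabolic element `g⁻¹ T ^ k g` of `Γ₀(N)` acts trivially on a root. -/
theorem eigenvalue_eq_one_of_conj_T (H : IsRoot I m D f h) (hm : 0 < m) (hN : 0 < N)
    {g : SL(2, ℤ)} {k : ℤ} (hγ : g⁻¹ * ModularGroup.T ^ k * g ∈ Gamma0 N) {ζ : ℂ}
    (hζ : (g⁻¹ * ModularGroup.T ^ k * g) • h = cst ζ * h) : ζ = 1 := by
  obtain ⟨v, c, hc, hv, hcm, hord⟩ := H.exists_ordInfMer_eq hm hN g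
  obtain ⟨t, ht0, ht⟩ := exists_ord_eq_one v
  have hmN : 0 < m * N := Nat.mul_pos hm hN
  have hconj : ∀ x : MerFun, ModularGroup.T ^ k • (g • x) =
      g • ((g⁻¹ * ModularGroup.T ^ k * g) • x) := by
    intro x
    rw [← mul_smul, ← mul_smul]
    congr 1
    group
  -- the eigenvalue on the root
  have h1 : ModularGroup.T ^ k • (g • h) = cst ζ * (g • h) := by
    rw [hconj, hζ, smul_mul', sl_smul_cst]
  have hgh : g • h ≠ 0 := by
    intro h0
    apply H.root_ne_zero hm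
    have := congrArg (g⁻¹ • ·) h0
    simpa using this
  have e1 := eigenvalue_of_T_zpow_smul hmN hcm hgh k ζ h1
  -- the eigenvalue on a uniformiser
  have h2 : ModularGroup.T ^ k • (g • I.emb t) = cst 1 * (g • I.emb t) := by
    rw [hconj, I.emb_fixed _ hγ, cst_one, one_mul]
  have hgt : g • I.emb t ≠ 0 := by
    intro h0
    apply I.emb_ne_zero ht0
    have := congrArg (g⁻¹ • ·) h0
    simpa using this
  have e2 := eigenvalue_of_T_zpow_smul hN (I.isCuspMer t g) hgt k 1 h2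
  rw [← hv t ht0, ht, mul_one] at e2
  have e3 := qParam_nat_mul_pow m N hm (((-k : ℤ) : ℂ))
  rw [e1, hord]
  have e4 : (c : ℤ) * ((m : ℤ) * D v) = (m : ℤ) * ((c : ℤ) * D v) := by ring
  rw [e4, zpow_mul, zpow_natCast, e3, zpow_mul, ← e2, one_zpow]

/-- An element of `Γ₀(N)` with `trace ^ 2 ≤ 4` acts trivially on a root. -/
theorem eigenvalue_eq_one_of_isPE (H : IsRoot I m D f h) (hm : 0 < m) (hN : 0 < N)
    {γ : SL(2, ℤ)} (hγ : γ ∈ Gamma0 N) (hPE : IsPE γ) {ζ : ℂ} (hζ : γ • h = cst ζ * h) :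
    ζ = 1 := by
  rcases lt_or_eq_of_le hPE with hlt | heq
  · obtain ⟨τ, hτ⟩ := exists_fixed_of_trace_sq_lt γ hlt
    exact H.eigenvalue_eq_one_of_fixed hm hγ hτ hζ
  · obtain ⟨g, k, hk | hk⟩ := exists_conj_T_zpow γ heq
    · rw [hk] at hγ hζ
      exact H.eigenvalue_eq_one_of_conj_T hm hN hγ hζ
    · -- `-1` acts trivially
      have hneg : (-1 : SL(2, ℤ)) • h = h := by
        have hpow : (-1 : SL(2, ℤ)) • h ^ m = h ^ m := by
          rw [H.pow_eq, I.emb_fixed _ (neg_one_mem_Gamma0 N)]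
        obtain ⟨ζ₀, ⟨-, hζ₀⟩, -⟩ := existsUnique_cst_mul_sl_smul hm (H.root_ne_zero hm) _ hpow
        have : ζ₀ = 1 := H.eigenvalue_eq_one_of_fixed hm (neg_one_mem_Gamma0 N)
          (τ := UpperHalfPlane.I) (by simp) hζ₀
        rw [hζ₀, this, cst_one, one_mul]
      have hγ' : g⁻¹ * ModularGroup.T ^ k * g = -1 * γ := by
        rw [hk]; simp
      have hmem : g⁻¹ * ModularGroup.T ^ k * g ∈ Gamma0 N := by
        rw [hγ']
        exact (Gamma0 N).mul_mem (neg_one_mem_Gamma0 N) hγ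
      have hζ' : (g⁻¹ * ModularGroup.T ^ k * g) • h = cst ζ * h := by
        rw [hγ', mul_smul, hζ, smul_mul', sl_smul_cst, hneg]
      exact H.eigenvalue_eq_one_of_conj_T hm hN hmem hζ'

theorem existsUnique_eigenvalue (H : IsRoot I m D f h) (hm : 0 < m) {γ : SL(2, ℤ)}
    (hγ : γ ∈ Gamma0 N) : ∃! c : ℂ, c ^ m = 1 ∧ γ • h = cst c * h :=
  existsUnique_cst_mul_sl_smul hm (H.root_ne_zero hm) γ (by rw [H.pow_eq, I.emb_fixed γ hγ])

/-- The eigenvalue of `γ⁻¹` on the root. -/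
noncomputable def eig (H : IsRoot I m D f h) (hm : 0 < m) (γ : Gamma0 N) : ℂ :=
  Classical.choose (H.existsUnique_eigenvalue hm ((Gamma0 N).inv_mem γ.2)).exists

theorem eig_pow (H : IsRoot I m D f h) (hm : 0 < m) (γ : Gamma0 N) : H.eig hm γ ^ m = 1 :=
  (Classical.choose_spec (H.existsUnique_eigenvalue hm ((Gamma0 N).inv_mem γ.2)).exists).1

theorem eig_spec (H : IsRoot I m D f h) (hm : 0 < m) (γ : Gamma0 N) :
    (γ : SL(2, ℤ))⁻¹ • h = cst (H.eig hm γ) * h :=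
  (Classical.choose_spec (H.existsUnique_eigenvalue hm ((Gamma0 N).inv_mem γ.2)).exists).2

theorem eig_eq (H : IsRoot I m D f h) (hm : 0 < m) (γ : Gamma0 N) {c : ℂ}
    (hc : (γ : SL(2, ℤ))⁻¹ • h = cst c * h) : H.eig hm γ = c := by
  have h1 := H.eig_spec hm γ
  rw [hc] at h1
  exact (cst_injective (mul_right_cancel₀ (H.root_ne_zero hm) h1)).symm

theorem eig_one (H : IsRoot I m D f h) (hm : 0 < m) : H.eig hm 1 = 1 :=
  H.eig_eq hm 1 (by simp)

theorem eig_mul (H : IsRoot I m D f h) (hm : 0 < m) (γ δ : Gamma0 N) :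
    H.eig hm (γ * δ) = H.eig hm γ * H.eig hm δ := by
  apply H.eig_eq hm
  rw [Subgroup.coe_mul, mul_inv_rev, mul_smul, H.eig_spec hm γ, smul_mul', sl_smul_cst,
    H.eig_spec hm δ, cst_mul, mul_assoc]

/-- The character of `Γ₀(N)` attached to a root: `h (γ z) = χ(γ) h (z)`. -/
noncomputable def char (H : IsRoot I m D f h) [NeZero m] : Gamma0 N →* rootsOfUnity m ℂ where
  toFun γ := rootsOfUnity.mkOfPowEq (H.eig (NeZero.pos m) γ) (H.eig_pow (NeZero.pos m) γ)
  map_one' := by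
    apply Subtype.ext
    apply Units.ext
    simp [H.eig_one (NeZero.pos m)]
  map_mul' γ δ := by
    apply Subtype.ext
    apply Units.ext
    simp [H.eig_mul (NeZero.pos m)]

theorem char_apply (H : IsRoot I m D f h) [NeZero m] (γ : Gamma0 N) :
    (((H.char γ : rootsOfUnity m ℂ) : ℂˣ) : ℂ) = H.eig (NeZero.pos m) γ := rfl

theorem char_spec (H : IsRoot I m D f h) [NeZero m] (γ : Gamma0 N) :
    (γ : SL(2, ℤ))⁻¹ • h = cst (((H.char γ : rootsOfUnity m ℂ) : ℂˣ) : ℂ) * h :=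
  H.eig_spec (NeZero.pos m) γ

theorem char_eq_iff (H : IsRoot I m D f h) [NeZero m] (χ : Gamma0 N →* rootsOfUnity m ℂ) :
    H.char = χ ↔ ∀ γ : Gamma0 N,
      (γ : SL(2, ℤ))⁻¹ • h = cst (((χ γ : rootsOfUnity m ℂ) : ℂˣ) : ℂ) * h := by
  constructor
  · rintro rfl γ
    exact H.char_spec γ
  · intro hχ
    refine MonoidHom.ext fun γ => ?_
    apply Subtype.ext
    apply Units.ext
    rw [char_apply]
    exact H.eig_eq _ γ (hχ γ)

theorem char_mem_charPE (H : IsRoot I m D f h) [NeZero m] (hN : 0 < N) :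
    H.char ∈ charPE (Gamma0 N) (rootsOfUnity m ℂ) := by
  intro γ hγ
  apply Subtype.ext
  apply Units.ext
  rw [char_apply]
  exact H.eigenvalue_eq_one_of_isPE (NeZero.pos m) hN ((Gamma0 N).inv_mem γ.2) (isPE_inv hγ)
    (H.eig_spec (NeZero.pos m) γ)

end IsRoot

end Fermat.Agent.Gateway.Theta
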