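import Fermat.Agent.Gateway.Theta.Main
import Fermat.Agent.Gateway.Theta.HeckeCore
import Fermat.Agent.Gateway.Hecke.CohPE
import Fermat.Agent.Gateway.Kummer.HeckeRed

/-!
# P-GATEWAY WP-HK3 (helper20): `θ` intertwines the Hecke operator on `J_ℂ[m]` with the Hecke
operator on characters

`theta m (heckeOperatorAlong ℂ N ℓ x) = heckeChar N ℓ hlN (theta m x)`.

Inputs:
* `I : DictInput N (FF ℂ N)` (WP-DICT, consumed by WP-A1 `theta`);
* `HeckeInputsAlong ℂ N ℓ` (WP-HK1, unconditional: `Gateway.Hecke.heckeInputsAlong`);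
* `NormProdFormula I` (WP-DICT D5): `I.emb (Norm_α (β f)) = ∏_x (I.emb f) ∘ heckeRep ℓ x`.
-/

set_option autoImplicit false
set_option linter.unusedSectionVars false

open UpperHalfPlane CongruenceSubgroup Matrix.SpecialLinearGroup
open scoped MatrixGroups
open ModularCurve AlgebraicCurve

namespace Fermat.Agent.Gateway.ThetaHecke

open Fermat.Agent.S24 Fermat.Agent.S24.MerFun Fermat.Agent.Gateway.Root
open Fermat.Agent.Gateway.HeckeCoh Fermat.Agent.Gateway.Theta Fermat.Agent.Gateway.Kummer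
open Fermat.Agent.Gateway.A2 Fermat.Agent.Gateway.A2.Count

variable {N : ℕ} (ℓ : ℕ) [NeZero N] [NeZero ℓ] [Fact ℓ.Prime]

/-- **D5** (as a hypothesis): the embedding into `MerFun` turns the multiplicative Hecke operator
`Norm_α ∘ β` on functions into the Hecke product. -/
def NormProdFormula (I : DictInput N (FF ℂ N)) : Prop :=
  ∀ f : FF ℂ N, I.emb (heckeFun ℂ N ℓ f) = heckeProd ℓ (I.emb f)

variable {ℓ} {I : DictInput N (FF ℂ N)}

/-- A root datum for `x` gives a root datum for `T_ℓ x`. -/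
theorem exists_isRoot_hecke (hH : HeckeInputsAlong ℂ N ℓ) (hD5 : NormProdFormula ℓ I) {m : ℕ}
    {D : Divisor.degZero (K := ℂ) (F := FF ℂ N)} {f : FF ℂ N} {h : MerFun}
    (H : IsRoot I m (⇑(D : Divisor ℂ (FF ℂ N))) f h) :
    ∃ D' : Divisor.degZero (K := ℂ) (F := FF ℂ N),
      Pic0.mk D' = heckeOperatorAlong ℂ N ℓ (Pic0.mk D) ∧
      IsRoot I m (⇑(D' : Divisor ℂ (FF ℂ N))) (heckeFun ℂ N ℓ f) (heckeProd ℓ h) := by
  have hK : IsKummerRep m (Pic0.mk D) f := ⟨H.ne_zero, D, rfl, H.div_eq⟩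
  obtain ⟨hne, D', hD', hdiv⟩ := isKummerRep_heckeOperatorAlong ℂ N ℓ hH hK
  refine ⟨D', hD', hne, hdiv, ?_⟩
  rw [← heckeProd_pow, H.pow_eq, hD5]

variable (hlN : ¬ ℓ ∣ N)

/-- The character of the Hecke product. -/
theorem char_heckeProd {m : ℕ} [NeZero m] {D D' : Place ℂ (FF ℂ N) → ℤ} {f f' : FF ℂ N}
    {h : MerFun} (H : IsRoot I m D f h) (H' : IsRoot I m D' f' (heckeProd ℓ h)) :
    H'.char = heckeCharHom N ℓ hlN (rootsOfUnity m ℂ) H.char := by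
  rw [IsRoot.char_eq_iff]
  intro γ
  rw [inv_smul_heckeProd N ℓ hlN (χ := fun γ => (((H.char γ : rootsOfUnity m ℂ) : ℂˣ) : ℂ))
    (fun γ => H.char_spec γ) γ, heckeCharHom_apply]
  congr 2
  rw [SubmonoidClass.coe_finsetProd, Units.coe_prod]

variable (I)

/-- **WP-HK3**, on the level of `thetaFun`. -/
theorem thetaFun_hecke (hH : HeckeInputsAlong ℂ N ℓ) (hD5 : NormProdFormula ℓ I) {m : ℕ}
    [NeZero m] (x y : Pic0.torsion ℂ (FF ℂ N) m)
    (hy : (y : Pic0 ℂ (FF ℂ N)) = heckeOperatorAlong ℂ N ℓ (x : Pic0 ℂ (FF ℂ N))) :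
    thetaFun I m y = heckeCharHom N ℓ hlN (rootsOfUnity m ℂ) (thetaFun I m x) := by
  obtain ⟨D, f, h, hD, H⟩ := exists_isRoot I (NeZero.pos m) x.1 x.2
  obtain ⟨D', hD', H'⟩ := exists_isRoot_hecke hH hD5 H
  rw [thetaFun_eq I y H' (by rw [hD', hD, hy]), thetaFun_eq I x H hD]
  exact char_heckeProd hlN H H'

/-- The Hecke operator restricted to the `m`-torsion. -/
noncomputable def heckeTorsion (N ℓ : ℕ) [NeZero N] [NeZero ℓ] (m : ℕ) :
    Pic0.torsion ℂ (FF ℂ N) m →+ Pic0.torsion ℂ (FF ℂ N) m :=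
  ((heckeOperatorAlong ℂ N ℓ).comp (Pic0.torsion ℂ (FF ℂ N) m).subtype).codRestrict
    (Pic0.torsion ℂ (FF ℂ N) m) (fun x => by
      rw [Pic0.mem_torsion]
      have hx : (m : ℤ) • (x : Pic0 ℂ (FF ℂ N)) = 0 := Pic0.mem_torsion.mp x.2
      show (m : ℤ) • heckeOperatorAlong ℂ N ℓ (x : Pic0 ℂ (FF ℂ N)) = 0
      rw [← map_zsmul, hx, map_zero])

@[simp] theorem coe_heckeTorsion (m : ℕ) (x : Pic0.torsion ℂ (FF ℂ N) m) :
    ((heckeTorsion N ℓ m x : Pic0.torsion ℂ (FF ℂ N) m) : Pic0 ℂ (FF ℂ N)) =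
      heckeOperatorAlong ℂ N ℓ (x : Pic0 ℂ (FF ℂ N)) := rfl

/-- **WP-HK3.**  `θ (T_ℓ x) = heckeChar (θ x)`. -/
theorem theta_hecke (hN : 0 < N) (hH : HeckeInputsAlong ℂ N ℓ) (hD5 : NormProdFormula ℓ I)
    {m : ℕ} [NeZero m] (x : Pic0.torsion ℂ (FF ℂ N) m) :
    theta I hN (heckeTorsion N ℓ m x) =
      Additive.ofMul (heckeChar N ℓ hlN (rootsOfUnity m ℂ) (Additive.toMul (theta I hN x))) := by
  apply Additive.toMul.injective
  apply Subtype.ext
  rw [theta_apply, toMul_ofMul, heckeChar_coe, theta_apply]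
  exact thetaFun_hecke I hlN hH hD5 x (heckeTorsion N ℓ m x) rfl

end Fermat.Agent.Gateway.ThetaHecke
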