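import Fermat.Agent.Gateway.Theta.Main
import Fermat.Agent.Gateway.A2.SL2Z

/-!
helper6 (P-GATEWAY A1).  Surjectivity of `θ : J_ℂ[m] → Hom_pe(Γ₀(N), μ_m)`, given eigenfunctions
for all characters (WP-EIS, `IsEigenFun`), the classification of the places of the function
field (WP-DICT D2, `PlaceCases`) and principal divisors.
-/

set_option autoImplicit false

open Complex UpperHalfPlane
open scoped MatrixGroups

namespace Fermat.Agent.Gateway.Theta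

open Fermat.Agent.S24 MerFun CuspOrd Fermat.Agent.Gateway.Root AlgebraicCurve CongruenceSubgroup
open Fermat.Agent.Gateway.A2 Fermat.Agent.Gateway.A2.Count

variable {N : ℕ} {F : Type*} [Field F] [Algebra ℂ F] (I : DictInput N F)

/-- The classification of the places of `F` (WP-DICT, D2). -/
def PlaceCases : Prop :=
  ∀ v : Place ℂ F,
    (∃ (z : ℍ) (δ : SL(2, ℤ)) (e : ℕ), δ ∈ Gamma0 N ∧ δ • z = z ∧ 0 < e ∧ IsPE δ ∧
      (∀ h : MerFun, δ • h = h → (e : ℤ) ∣ ordMer z h) ∧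
      ∀ f : F, f ≠ 0 → (e : ℤ) * v.ord f = ordMer z (I.emb f)) ∨
    (∃ (g : SL(2, ℤ)) (w : ℕ), 0 < w ∧ w ∣ N ∧ g⁻¹ * ModularGroup.T ^ w * g ∈ Gamma0 N ∧
      ∀ f : F, f ≠ 0 → ((N / w : ℕ) : ℤ) * v.ord f = ordInfMer N (g • I.emb f))

/-- The output of WP-EIS for a character `χ`. -/
def IsEigenFun {m : ℕ} (χ : Gamma0 N →* rootsOfUnity m ℂ) (hχ : MerFun) : Prop :=
  hχ ≠ 0 ∧ (∀ γ : Gamma0 N, (γ : SL(2, ℤ))⁻¹ • hχ = cst (((χ γ : rootsOfUnity m ℂ) : ℂˣ) : ℂ) * hχ) ∧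
    ∀ g : SL(2, ℤ), IsCuspMer N (g • hχ)

theorem isPE_of_abs_trace_le {δ : SL(2, ℤ)}
    (h : |(δ : Matrix (Fin 2) (Fin 2) ℤ).trace| ≤ 2) : IsPE δ := by
  unfold IsPE
  have := abs_le.1 h
  nlinarith [this.1, this.2]

theorem isPE_conj_T_pow (g : SL(2, ℤ)) (w : ℕ) : IsPE (g⁻¹ * ModularGroup.T ^ w * g) := by
  have := (isPE_conj_iff g⁻¹ (ModularGroup.T ^ w)).2 (isPE_T_pow w)
  rwa [inv_inv] at this

variable {I}

/-- The divisor of the `m`-th power of an eigenfunction of a character in `charPE` is divisible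
by `m`. -/
theorem dvd_ord_of_isEigenFun {m : ℕ} (hm : 0 < m) (hN : 0 < N) (hP : PlaceCases I)
    {χ : Gamma0 N →* rootsOfUnity m ℂ}
    (hχPE : χ ∈ charPE (Gamma0 N) (rootsOfUnity m ℂ)) {hχ : MerFun} (hE : IsEigenFun χ hχ)
    {φ : F} (hφ0 : φ ≠ 0) (hφ : I.emb φ = hχ ^ m) (v : Place ℂ F) : (m : ℤ) ∣ v.ord φ := by
  obtain ⟨h0, hlaw, hcusp⟩ := hE
  have hm' : (m : ℤ) ≠ 0 := Int.natCast_ne_zero.2 hm.ne'
  -- elements of `Γ₀(N)` with `trace ^ 2 ≤ 4` fix the eigenfunction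
  have hfix : ∀ δ : SL(2, ℤ), δ ∈ Gamma0 N → IsPE δ → δ • hχ = hχ := by
    intro δ hδ hPE
    have h1 := hlaw ⟨δ⁻¹, (Gamma0 N).inv_mem hδ⟩
    have h2 : χ ⟨δ⁻¹, (Gamma0 N).inv_mem hδ⟩ = 1 := hχPE _ (isPE_inv hPE)
    rw [h2] at h1
    simpa using h1
  rcases hP v with ⟨z, δ, e, hδ, -, he, hPE, hdvd, hv⟩ | ⟨g, w, hw, hwN, hmem, hv⟩
  · obtain ⟨k, hk⟩ := hdvd hχ (hfix δ hδ hPE)
    have h1 := hv φ hφ0
    rw [hφ, ordMer_pow, hk] at h1
    refine ⟨k, ?_⟩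
    have he' : (e : ℤ) ≠ 0 := Int.natCast_ne_zero.2 he.ne'
    apply mul_left_cancel₀ he'
    rw [h1]; ring
  · have hT : ModularGroup.T ^ w • (g • hχ) = g • hχ := by
      have : ModularGroup.T ^ w • (g • hχ) = g • ((g⁻¹ * ModularGroup.T ^ w * g) • hχ) := by
        rw [← mul_smul, ← mul_smul]
        congr 1
        group
      rw [this, hfix _ hmem (isPE_conj_T_pow g w)]
    obtain ⟨k, hk⟩ := dvd_ordInfMer hN hwN (hcusp g) hT
    have h1 := hv φ hφ0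
    rw [hφ, smul_pow', ordInfMer_pow hN (hcusp g), hk] at h1
    refine ⟨k, ?_⟩
    have hNw : ((N / w : ℕ) : ℤ) ≠ 0 := by
      have : 0 < N / w := Nat.div_pos (Nat.le_of_dvd hN hwN) hw
      exact Int.natCast_ne_zero.2 this.ne'
    apply mul_left_cancel₀ hNw
    rw [h1]; ring

/-- The `m`-th power of an eigenfunction lies in the function field. -/
theorem exists_emb_eq_pow {m : ℕ} {χ : Gamma0 N →* rootsOfUnity m ℂ} {hχ : MerFun}
    (hE : IsEigenFun χ hχ) : ∃ φ : F, φ ≠ 0 ∧ I.emb φ = hχ ^ m := by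
  obtain ⟨h0, hlaw, hcusp⟩ := hE
  have hinv : ∀ γ ∈ Gamma0 N, γ • hχ ^ m = hχ ^ m := by
    intro γ hγ
    have h1 := hlaw ⟨γ⁻¹, (Gamma0 N).inv_mem hγ⟩
    simp only [inv_inv] at h1
    rw [smul_pow', h1, mul_pow, ← cst_pow]
    have : ((((χ ⟨γ⁻¹, (Gamma0 N).inv_mem hγ⟩ : rootsOfUnity m ℂ) : ℂˣ) : ℂ)) ^ m = 1 := by
      have := (χ ⟨γ⁻¹, (Gamma0 N).inv_mem hγ⟩).2
      rw [_root_.mem_rootsOfUnity] at this
      have h2 := congrArg (fun u : ℂˣ => (u : ℂ)) this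
      simpa using h2
    rw [this, cst_one, one_mul]
  have hc : ∀ g : SL(2, ℤ), IsCuspMer N (g • hχ ^ m) := by
    intro g
    rw [smul_pow']
    exact (hcusp g).pow m
  obtain ⟨φ, hφ⟩ := I.range (hχ ^ m) hinv hc
  refine ⟨φ, ?_, hφ⟩
  rintro rfl
  rw [map_zero] at hφ
  exact pow_ne_zero m h0 hφ.symm

/-- **Surjectivity of `θ`**, given eigenfunctions for all characters (WP-EIS), the classification
of places (WP-DICT D2) and principal divisors. -/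
theorem theta_surjective {m : ℕ} [NeZero m] (hN : 0 < N) (hP : PlaceCases I)
    [HasPrincipalDivisors ℂ F]
    (hEis : ∀ χ ∈ charPE (Gamma0 N) (rootsOfUnity m ℂ), ∃ hχ : MerFun, IsEigenFun χ hχ) :
    Function.Surjective (theta (m := m) I hN) := by
  intro y
  obtain ⟨χ, hχPE⟩ : ∃ χ : Gamma0 N →* rootsOfUnity m ℂ,
      ∃ h : χ ∈ charPE (Gamma0 N) (rootsOfUnity m ℂ), y = Additive.ofMul ⟨χ, h⟩ :=
    ⟨(Additive.toMul y).1, (Additive.toMul y).2, rfl⟩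
  obtain ⟨hχPE, hy⟩ := hχPE
  have hm : 0 < m := NeZero.pos m
  have hm' : (m : ℤ) ≠ 0 := Int.natCast_ne_zero.2 hm.ne'
  obtain ⟨hχ, hE⟩ := hEis χ hχPE
  obtain ⟨φ, hφ0, hφ⟩ := exists_emb_eq_pow (I := I) hE
  obtain ⟨D₀, hD₀, hdeg₀⟩ := HasPrincipalDivisors.exists_divisor (K := ℂ) φ hφ0
  have hdvd := dvd_ord_of_isEigenFun hm hN hP hχPE hE hφ0 hφ
  set D : Divisor ℂ F := D₀.mapRange (fun n : ℤ => n / (m : ℤ)) (by simp) with hD
  have hDv : ∀ v : Place ℂ F, (m : ℤ) * D v = v.ord φ := by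
    intro v
    rw [hD, Finsupp.mapRange_apply, hD₀ v]
    exact Int.mul_ediv_cancel' (hdvd v)
  have hmD : (m : ℤ) • D = D₀ := by
    ext v
    rw [Finsupp.smul_apply, smul_eq_mul, hDv v, hD₀ v]
  have hdeg : D ∈ Divisor.degZero (K := ℂ) (F := F) := by
    rw [Divisor.mem_degZero]
    have : (m : ℤ) * Divisor.degree D = 0 := by
      rw [← smul_eq_mul, ← map_zsmul, hmD, hdeg₀]
    exact (mul_eq_zero.1 this).resolve_left hm'
  have hx : Pic0.mk ⟨D, hdeg⟩ ∈ Pic0.torsion ℂ F m := by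
    rw [Pic0.mem_torsion]
    have : (m : ℤ) • Pic0.mk ⟨D, hdeg⟩ = Pic0.mk ((m : ℤ) • ⟨D, hdeg⟩) := rfl
    rw [this]
    apply (QuotientAddGroup.eq_zero_iff _).2
    rw [AddSubgroup.mem_addSubgroupOf]
    show ((m : ℤ) • D) ∈ Divisor.principal
    rw [hmD]
    exact ⟨φ, hφ0, hD₀⟩
  have H : IsRoot I m (⇑((⟨D, hdeg⟩ : Divisor.degZero (K := ℂ) (F := F)) : Divisor ℂ F)) φ hχ :=
    ⟨hφ0, hDv, hφ.symm⟩
  refine ⟨⟨Pic0.mk ⟨D, hdeg⟩, hx⟩, ?_⟩
  rw [hy]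
  show Additive.ofMul _ = Additive.ofMul _
  congr 1
  apply Subtype.ext
  show thetaFun I m _ = χ
  rw [thetaFun_eq I ⟨Pic0.mk ⟨D, hdeg⟩, hx⟩ H rfl, IsRoot.char_eq_iff]
  exact hE.2.1

/-- Finiteness of the `m`-torsion from the injectivity of `θ`. -/
theorem finite_torsion (I : DictInput N F) {m : ℕ} [NeZero m] (hN : 0 < N)
    [Finite (charPE (Gamma0 N) (rootsOfUnity m ℂ))] : Finite (Pic0.torsion ℂ F m) := by
  have : Finite (Additive (charPE (Gamma0 N) (rootsOfUnity m ℂ))) :=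
    Finite.of_equiv _ Additive.ofMul
  exact Finite.of_injective _ (theta_injective (m := m) I hN)

theorem card_torsion_le (I : DictInput N F) {m : ℕ} [NeZero m] (hN : 0 < N)
    [Finite (charPE (Gamma0 N) (rootsOfUnity m ℂ))] :
    Nat.card (Pic0.torsion ℂ F m) ≤ Nat.card (charPE (Gamma0 N) (rootsOfUnity m ℂ)) := by
  have : Finite (Additive (charPE (Gamma0 N) (rootsOfUnity m ℂ))) :=
    Finite.of_equiv _ Additive.ofMul
  rw [Nat.card_congr (Additive.ofMul (α := charPE (Gamma0 N) (rootsOfUnity m ℂ)))]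
  exact Nat.card_le_card_of_injective _ (theta_injective (m := m) I hN)

/-- `θ` as an isomorphism. -/
noncomputable def thetaEquiv {m : ℕ} [NeZero m] (hN : 0 < N) (hP : PlaceCases I)
    [HasPrincipalDivisors ℂ F]
    (hEis : ∀ χ ∈ charPE (Gamma0 N) (rootsOfUnity m ℂ), ∃ hχ : MerFun, IsEigenFun χ hχ) :
    Pic0.torsion ℂ F m ≃+ Additive (charPE (Gamma0 N) (rootsOfUnity m ℂ)) :=
  AddEquiv.ofBijective (theta (m := m) I hN)
    ⟨theta_injective I hN, theta_surjective hN hP hEis⟩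

theorem thetaEquiv_apply {m : ℕ} [NeZero m] (hN : 0 < N) (hP : PlaceCases I)
    [HasPrincipalDivisors ℂ F]
    (hEis : ∀ χ ∈ charPE (Gamma0 N) (rootsOfUnity m ℂ), ∃ hχ : MerFun, IsEigenFun χ hχ)
    (x : Pic0.torsion ℂ F m) : thetaEquiv hN hP hEis x = theta I hN x := rfl

theorem card_torsion_eq {m : ℕ} [NeZero m] (hN : 0 < N) (hP : PlaceCases I)
    [HasPrincipalDivisors ℂ F]
    (hEis : ∀ χ ∈ charPE (Gamma0 N) (rootsOfUnity m ℂ), ∃ hχ : MerFun, IsEigenFun χ hχ) :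
    Nat.card (Pic0.torsion ℂ F m) = Nat.card (charPE (Gamma0 N) (rootsOfUnity m ℂ)) := by
  rw [Nat.card_congr (thetaEquiv hN hP hEis).toEquiv]
  exact Nat.card_congr Additive.toMul

end Fermat.Agent.Gateway.Theta
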