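import Fermat.Agent.Gateway.Theta.Instance
import Fermat.Agent.Gateway.A2.Uncond
import Fermat.Agent.Gateway.BaseChange.ModularCount

/-!
helper6 (P-GATEWAY A1 / export E1).  The number of `m`-torsion points of `J₀(N)`:
`#J₀(N)(ℂ)[m] = #J₀(N)(ℚ̄)[m] = m ^ (2 g)` with `g = dim S₂(Γ₀(N))` (`A2.Count.genusNat N`,
equal to the classical genus formula by `genusNat_cast`).
-/

set_option autoImplicit false

open scoped MatrixGroups

namespace Fermat.Agent.Gateway.Theta

open AlgebraicCurve CongruenceSubgroup ModularCurve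
open Fermat.Agent.Gateway.A2 Fermat.Agent.Gateway.A2.Count
open Fermat.Agent.Gateway.Dict.SetupC

variable (N : ℕ) [NeZero N]

/-- `#J₀(N)(ℂ)[m] = m ^ (2 g)`. -/
theorem card_torsion_complex (m : ℕ) [NeZero m] :
    Nat.card (Pic0.torsion ℂ (FC N) m) = m ^ (2 * genusNat N) := by
  rw [card_torsion_FC N m]
  exact ((a2_Gamma0_genusNat N).2 m).2.2

/-- **Export E1.**  `#J₀(N)(ℚ̄)[m] = m ^ (2 g)`. -/
theorem card_torsion_Qbar (m : ℕ) (hm : 0 < m) :
    Nat.card (Pic0.torsion (AlgebraicClosure ℚ) (modularFunctionFieldBar N) m) =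
      m ^ (2 * genusNat N) := by
  refine BaseChange.Modular.card_torsion_pow_of_complex N (genusNat N) ?_ m hm
  intro n hn
  have : NeZero n := ⟨hn.ne'⟩
  exact card_torsion_complex N n

/-- Export E1 in the form of the plan: there is `g` with `g = genusFormula N` and
`#J₀(N)(ℚ̄)[m] = m ^ (2 g)` for all `m > 0`. -/
theorem exists_genus_card_torsion :
    ∃ g : ℕ, (g : ℚ) = ModularCurve.genusFormula N ∧
      ∀ m : ℕ, 0 < m →
        Nat.card (Pic0.torsion (AlgebraicClosure ℚ) (modularFunctionFieldBar N) m) =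
          m ^ (2 * g) :=
  ⟨genusNat N, genusNat_cast N, fun m hm => card_torsion_Qbar N m hm⟩

/-- The Prelude predicate `AbelJacobiCard` for `J₀(N)` over `ℚ̄`. -/
theorem abelJacobiCard_Qbar (p : ℕ) (hp : 0 < p) :
    AbelJacobiCard (AlgebraicClosure ℚ) (modularFunctionFieldBar N) p (genusNat N) := by
  intro n
  rw [card_torsion_Qbar N (p ^ n) (pow_pos hp n), ← pow_mul]
  congr 1
  ring

end Fermat.Agent.Gateway.Theta
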