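import Fermat.Agent.Gateway.Theta.Char

/-!
helper6 (P-GATEWAY A1).  Descent of the level at the cusp: a `T ^ N`-invariant quotient of
`m N`-periodic cusp functions is a quotient of `N`-periodic cusp functions.
-/

set_option autoImplicit false

open Complex UpperHalfPlane
open scoped MatrixGroups

namespace Fermat.Agent.Gateway.Theta

open Fermat.Agent.S24 MerFun CuspOrd Fermat.Agent.Gateway.Root AlgebraicCurve CongruenceSubgroup
open Fermat.Agent.Gateway.A2 Fermat.Agent.Gateway.A2.Count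

/-- conjugates of `T ^ N` lie in `Γ₀(N)` -/
theorem conj_T_pow_mem_Gamma0' (N : ℕ) (g : SL(2, ℤ)) :
    g⁻¹ * ModularGroup.T ^ N * g ∈ Gamma0 N := by
  have h1 : ModularGroup.T ^ (N : ℤ) ∈ CongruenceSubgroup.Gamma N := by
    have := ModularGroup_T_pow_mem_Gamma (N : ℤ) (N : ℤ) dvd_rfl
    simpa using this
  have h2 : g⁻¹ * ModularGroup.T ^ (N : ℤ) * g ∈ CongruenceSubgroup.Gamma N := by
    have := (Gamma_normal (N := N)).conj_mem _ h1 g⁻¹
    simpa using this
  rw [zpow_natCast] at h2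
  rw [Gamma_mem] at h2
  rw [Gamma0_mem]
  exact h2.2.2.1

/-- A `T ^ N`-invariant quotient of `m N`-periodic cusp functions is a quotient of `N`-periodic
cusp functions. -/
theorem isCuspMer_of_T_pow_smul_eq {N m : ℕ} (hm : 0 < m) {x : MerFun}
    (hx : IsCuspMer (m * N) x) (hT : ModularGroup.T ^ N • x = x) : IsCuspMer N x := by
  rcases eq_or_ne x 0 with rfl | hx0
  · exact isCuspMer_zero N
  obtain ⟨a, b, ha, hb, ha0, hb0, rfl⟩ := hx.exists_div hx0
  set σ : SL(2, ℤ) := ModularGroup.T ^ N with hσ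
  have hσm : σ ^ m • b = b := by
    rw [hσ, ← pow_mul, mul_comm]
    exact T_pow_smul_of_mem_cuspFnAlg hb
  have hσmem : ∀ {a : HolFun}, a ∈ cuspFnAlg (m * N) → σ • a ∈ cuspFnAlg (m * N) := by
    intro a ha
    have := T_zpow_smul_mem_cuspFnAlg ha (N : ℤ)
    rwa [zpow_natCast] at this
  obtain ⟨c, hc, hc0, hQσ⟩ := exists_invariant_multiple (N := m * N) σ m hm hσmem hb hb0 hσm
  have hQ0 : c * b ≠ 0 := mul_ne_zero hc0 hb0
  have hP0 : c * a ≠ 0 := mul_ne_zero hc0 ha0
  have hxeq : algebraMap HolFun MerFun a / algebraMap HolFun MerFun b =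
      algebraMap HolFun MerFun (c * a) / algebraMap HolFun MerFun (c * b) := by
    rw [map_mul, map_mul, mul_div_mul_left _ _ (algebraMap_ne_zero hc0)]
  have hPσ : σ • (c * a) = c * a := by
    apply algebraMap_injective
    have h3 : algebraMap HolFun MerFun (c * a) =
        (algebraMap HolFun MerFun a / algebraMap HolFun MerFun b) *
          algebraMap HolFun MerFun (c * b) := by
      rw [hxeq, div_mul_cancel₀ _ (algebraMap_ne_zero hQ0)]
    rw [← MerFun.sl_smul_algebraMap, h3, smul_mul', hT, MerFun.sl_smul_algebraMap, hQσ]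
  have hdesc : ∀ {p : HolFun}, p ∈ cuspFnAlg (m * N) → σ • p = p → p ∈ cuspFnAlg N := by
    intro p hp hpσ
    have hp' := mem_cuspFnAlg.1 hp
    exact mem_cuspFnAlg.2 ⟨hp'.mdiff, (T_pow_smul_eq_iff N p).1 hpσ, hp'.growth⟩
  rw [hxeq]
  exact ⟨c * a, c * b, hdesc ((cuspFnAlg _).mul_mem hc ha) hPσ,
    hdesc ((cuspFnAlg _).mul_mem hc hb) hQσ, hQ0, rfl⟩

end Fermat.Agent.Gateway.Theta
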