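import Fermat.Agent.Gateway.Theta.Hecke
import Fermat.Agent.Gateway.Dict.NormProd
import Fermat.Agent.Gateway.Dict.CosetsFin
import Fermat.Agent.Gateway.Dict.ThetaInput
import Fermat.Agent.Gateway.Hecke.Inputs

/-!
# P-GATEWAY WP-HK3, unconditional form (helper20)

With the dictionary input `dictInput N` (helper19), D5 in Hecke-product form (helper46, helper24,
helper19) and the Hecke inputs over `ℂ` (WP-HK1), the map
`θ : J_ℂ[m] → Hom_pe(Γ₀(N), μ_m)` intertwines `T_ℓ` with `heckeChar`, for every prime `ℓ ∤ N`.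
-/

set_option autoImplicit false
set_option linter.unusedSectionVars false

open ModularCurve AlgebraicCurve CongruenceSubgroup

namespace Fermat.Agent.Gateway.ThetaHecke

open Fermat.Agent.Gateway.Theta Fermat.Agent.Gateway.Kummer Fermat.Agent.Gateway.HeckeCoh
open Fermat.Agent.Gateway.Dict.ThetaInput Fermat.Agent.Gateway.Dict.CosetsFin
open Fermat.Agent.Gateway.Dict.CosetsP1 Fermat.Agent.Gateway.Dict.NormProd
open Fermat.Agent.Gateway.A2 Fermat.Agent.Gateway.A2.Count

variable (N ℓ : ℕ) [NeZero N] [NeZero ℓ] [Fact ℓ.Prime] (hlN : ¬ ℓ ∣ N)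

include hlN in
/-- **D5**, unconditional, in the shape consumed by `theta_hecke`. -/
theorem normProdFormula : NormProdFormula ℓ (dictInput N) := by
  intro f
  have hl : ℓ.Prime := Fact.out
  have hc : Nat.Coprime ℓ N := (Nat.Prime.coprime_iff_not_dvd hl).mpr hlN
  rw [dictInput_emb]
  exact embC_heckeFun_eq_heckeProd_of_reps ℓ N (repFin hc) (repFin_bijective hl hlN) rfl
    (fun _ => delta hc) (fun _ => delta_mem hc) (hmat_repFin hc) f

/-- **WP-HK3, unconditional.**  `θ (T_ℓ x) = heckeChar (θ x)` on `J_ℂ[m]`. -/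
theorem theta_hecke_dictInput (hN : 0 < N) {m : ℕ} [NeZero m]
    (x : Pic0.torsion ℂ (FF ℂ N) m) :
    theta (dictInput N) hN (heckeTorsion N ℓ m x) =
      Additive.ofMul (heckeChar N ℓ hlN (rootsOfUnity m ℂ)
        (Additive.toMul (theta (dictInput N) hN x))) :=
  theta_hecke (dictInput N) hlN hN (Fermat.Agent.Gateway.Hecke.heckeInputsAlong ℂ N ℓ)
    (normProdFormula N ℓ hlN) x

end Fermat.Agent.Gateway.ThetaHecke
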