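import Fermat.Agent.Gateway.Theta.Surj
import Fermat.Agent.Gateway.Dict.ThetaInput
import Fermat.Agent.Gateway.Dict.PlacesC
import Fermat.Agent.Gateway.EIS.Main

/-!
helper6 (P-GATEWAY A1).  The unconditional statements about
`θ : J_ℂ[m] → Hom_pe(Γ₀(N), μ_m)` for the function field `FC N` of `X₀(N)` over `ℂ`:
the dictionary input is `Dict.ThetaInput.dictInput N` (helper19), the classification of places is
`Dict.PlacesC.place_cases` (WP-DICT D2), the eigenfunctions are `EIS.exists_hChi` (WP-EIS).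
`thetaC N m` is an isomorphism `J_ℂ[m] ≃ Hom_pe(Γ₀(N), μ_m)`.
-/

set_option autoImplicit false

open Complex UpperHalfPlane
open scoped MatrixGroups

namespace Fermat.Agent.Gateway.Theta

open Fermat.Agent.S24 MerFun CuspOrd Fermat.Agent.Gateway.Root AlgebraicCurve CongruenceSubgroup
open Fermat.Agent.Gateway.A2 Fermat.Agent.Gateway.A2.Count
open Fermat.Agent.Gateway.Dict.SetupC Fermat.Agent.Gateway.Dict.EmbedC
open Fermat.Agent.Gateway.Dict Fermat.Agent.Gateway.Dict.ThetaInput

variable (N : ℕ) [NeZero N]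

theorem placeCases : PlaceCases (dictInput N) := by
  intro v
  rcases PlacesC.place_cases N v with ⟨z, δ, e, h1, h2, h3, h4, h5, h6⟩ | ⟨g, w, h1, h2, h3, h4⟩
  · exact Or.inl ⟨z, δ, e, h1, h2, h3, isPE_of_abs_trace_le h4, h5, fun f _ => h6 f⟩
  · exact Or.inr ⟨g, w, h1, h2, h3, fun f _ => h4 f⟩

theorem pos_of_neZero : 0 < N := Nat.pos_of_ne_zero (NeZero.ne N)

variable (m : ℕ) [NeZero m]

omit [NeZero N] in
/-- WP-EIS in the form used by `theta_surjective`. -/
theorem exists_isEigenFun (χ : Gamma0 N →* rootsOfUnity m ℂ)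
    (hχ : χ ∈ charPE (Gamma0 N) (rootsOfUnity m ℂ)) : ∃ h : MerFun, IsEigenFun χ h := by
  obtain ⟨h, h0, hlaw, -, hcusp⟩ := EIS.exists_hChi N m ⟨χ, hχ⟩
  exact ⟨h, h0, hlaw, hcusp⟩

/-- **`θ` for `X₀(N)` over `ℂ`.** -/
noncomputable def thetaC :
    Pic0.torsion ℂ (FC N) m →+ Additive (charPE (Gamma0 N) (rootsOfUnity m ℂ)) :=
  theta (dictInput N) (pos_of_neZero N)

theorem thetaC_def : thetaC N m = theta (dictInput N) (pos_of_neZero N) := rfl

theorem thetaC_injective : Function.Injective (thetaC N m) :=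
  theta_injective (dictInput N) (pos_of_neZero N)

theorem thetaC_surjective : Function.Surjective (thetaC N m) :=
  theta_surjective (pos_of_neZero N) (placeCases N) (exists_isEigenFun N m)

theorem thetaC_bijective : Function.Bijective (thetaC N m) :=
  ⟨thetaC_injective N m, thetaC_surjective N m⟩

/-- `θ` as an isomorphism `J_ℂ[m] ≃ Hom_pe(Γ₀(N), μ_m)`. -/
noncomputable def thetaEquivC :
    Pic0.torsion ℂ (FC N) m ≃+ Additive (charPE (Gamma0 N) (rootsOfUnity m ℂ)) :=
  AddEquiv.ofBijective (thetaC N m) (thetaC_bijective N m)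

@[simp] theorem thetaEquivC_apply (x : Pic0.torsion ℂ (FC N) m) :
    thetaEquivC N m x = thetaC N m x := rfl

/-- The defining property: for any root datum `(D, f, h)` of `x`, the character `θ x` is the
character of `h`. -/
theorem thetaC_eq (x : Pic0.torsion ℂ (FC N) m) {D : Divisor.degZero (K := ℂ) (F := FC N)}
    {f : FC N} {h : MerFun} (H : IsRoot (dictInput N) m (⇑(D : Divisor ℂ (FC N))) f h)
    (hD : Pic0.mk D = (x : Pic0 ℂ (FC N))) :
    ((Additive.toMul (thetaC N m x) : charPE (Gamma0 N) (rootsOfUnity m ℂ)) :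
      Gamma0 N →* rootsOfUnity m ℂ) = H.char :=
  thetaFun_eq (dictInput N) x H hD

/-- `#J_ℂ[m] = #Hom_pe(Γ₀(N), μ_m)`. -/
theorem card_torsion_FC :
    Nat.card (Pic0.torsion ℂ (FC N) m) = Nat.card (charPE (Gamma0 N) (rootsOfUnity m ℂ)) :=
  card_torsion_eq (pos_of_neZero N) (placeCases N) (exists_isEigenFun N m)

end Fermat.Agent.Gateway.Theta
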